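/-
S20 package G1 (backup, helper98): existence of a frame from a generating family.

A family `F j` (`j : J`, `J` finite with at most `|X N|` elements) generating all modular forms on
`Γ₀(N)` over the level-one forms can be reindexed by the cosets `X N`, and is then a frame in the
sense of `Fermat.Agent.S20.IsFrame`: the matrix of coset translates is invertible at every point.
-/
import Fermat.Agent.S20.FrameLemmas
import Fermat.Agent.S20.H30.LocalGen

set_option autoImplicit false

open UpperHalfPlane ModularForm CongruenceSubgroup Matrix.SpecialLinearGroup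
open scoped MatrixGroups ModularForm

noncomputable section

namespace Fermat.Agent.S20.H98

variable {N : ℕ} [NeZero N]

/-- A generating family (plain form of generation) with at most `|X N|` members has exactly
`|X N|` members; any reindexing by `X N` is a frame. -/
theorem isFrame_of_generates {J : Type*} [Fintype J] {a : J → ℤ}
    (F : ∀ j, ModularForm (Γ0 N) (a j))
    (hgen : ∀ (k : ℤ) (f : ModularForm (Γ0 N) k), ∃ r : ∀ j, ModularForm 𝒮ℒ (k - a j),
      ∀ τ, f τ = ∑ j, r j τ * F j τ) (e : X N ≃ J) :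
    IsFrame (fun x => a (e x)) (fun x => F (e x)) := by
  have hgen' : ∀ (k : ℤ) (f : ModularForm (Γ0 N) k),
      ∃ r : ∀ x : X N, ModularForm 𝒮ℒ (k - a (e x)), ∀ τ, f τ = ∑ x, r x τ * F (e x) τ := by
    intro k f
    obtain ⟨r, hr⟩ := hgen k f
    refine ⟨fun x => r (e x), fun τ => ?_⟩
    rw [hr τ]
    exact (Equiv.sum_comp e fun j => r j τ * F j τ).symm
  refine ⟨fun τ => H30.det_frameMatrix_ne_zero_of_generates (fun x => F (e x)) hgen' τ, ?_⟩
  intro k f
  obtain ⟨r, hr⟩ := hgen' k f
  exact ⟨r, fun c τ => cosetFun_eq_sum_of_eq_sum (fun x => F (e x)) f r hr c τ⟩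

/-- A generating family (plain form) with at most `|X N|` members can be reindexed by `X N`. -/
theorem exists_equiv_of_generates {J : Type*} [Fintype J] {a : J → ℤ}
    (F : ∀ j, ModularForm (Γ0 N) (a j)) (hcard : Fintype.card J ≤ Nat.card (X N))
    (hgen : ∀ (k : ℤ) (f : ModularForm (Γ0 N) k), ∃ r : ∀ j, ModularForm 𝒮ℒ (k - a j),
      ∀ τ, f τ = ∑ j, r j τ * F j τ) :
    Nonempty (X N ≃ J) := by
  have h1 : Fintype.card (X N) ≤ Fintype.card J := H30.card_le_card_of_generates F hgen
  rw [Nat.card_eq_fintype_card] at hcard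
  exact ⟨Fintype.equivOfCardEq (le_antisymm h1 hcard)⟩

/-- **G1, general form.** A generating family (plain form of generation) with at most `|X N|`
members is, after reindexing by `X N`, a frame. -/
theorem exists_isFrame_of_generates {J : Type*} [Fintype J] {a : J → ℤ}
    (F : ∀ j, ModularForm (Γ0 N) (a j)) (hcard : Fintype.card J ≤ Nat.card (X N))
    (hgen : ∀ (k : ℤ) (f : ModularForm (Γ0 N) k), ∃ r : ∀ j, ModularForm 𝒮ℒ (k - a j),
      ∀ τ, f τ = ∑ j, r j τ * F j τ) :
    ∃ e : X N ≃ J, IsFrame (fun x => a (e x)) (fun x => F (e x)) := by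
  obtain ⟨e⟩ := exists_equiv_of_generates F hcard hgen
  exact ⟨e, isFrame_of_generates F hgen e⟩

/-- **G1, coset form of generation.** Same with the generation hypothesis stated for all coset
translates (the shape of `exists_generators` in the S20 skeleton). -/
theorem exists_isFrame_of_generates_coset {J : Type*} [Fintype J] {a : J → ℤ}
    (F : ∀ j, ModularForm (Γ0 N) (a j)) (hcard : Fintype.card J ≤ Nat.card (X N))
    (hgen : ∀ (k : ℤ) (f : ModularForm (Γ0 N) k), ∃ r : ∀ j, ModularForm 𝒮ℒ (k - a j),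
      ∀ (c : X N) (τ : ℍ), cosetFun f c τ = ∑ j, r j τ * cosetFun (F j) c τ) :
    ∃ e : X N ≃ J, IsFrame (fun x => a (e x)) (fun x => F (e x)) := by
  refine exists_isFrame_of_generates F hcard fun k f => ?_
  obtain ⟨r, hr⟩ := hgen k f
  exact ⟨r, eq_sum_of_cosetFun_eq_sum F f r hr⟩

/-- **G1 in the skeleton shape**: from the statement of package D (`exists_generators`: at most
`|X N|` generators indexed by `Fin n`, coset form of generation) there is a frame. -/
theorem exists_frame_of_exists_generators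
    (hD : ∃ (n : ℕ) (a : Fin n → ℤ) (F : ∀ i, ModularForm (Γ0 N) (a i)), n ≤ Nat.card (X N) ∧
      ∀ (k : ℤ) (f : ModularForm (Γ0 N) k), ∃ r : ∀ i, ModularForm 𝒮ℒ (k - a i),
        ∀ (c : X N) (τ : ℍ), cosetFun f c τ = ∑ i, r i τ * cosetFun (F i) c τ) :
    ∃ (a : X N → ℤ) (F : ∀ x, ModularForm (Γ0 N) (a x)), IsFrame a F := by
  obtain ⟨n, a, F, hn, hgen⟩ := hD
  obtain ⟨e, he⟩ := exists_isFrame_of_generates_coset F (by simpa using hn) hgen
  exact ⟨_, _, he⟩

/-- **G1 from a generating family with natural-number weights** (the shape of helper80's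
freeness theorem): at most `|X N|` generators of even weights `wt j : ℕ`, plain generation.
The frame has even nonnegative weights. -/
theorem exists_frame_of_nat_weights {n : ℕ} (wt : Fin n → ℕ)
    (F : ∀ j, ModularForm (Γ0 N) (wt j)) (hn : n ≤ Nat.card (X N)) (heven : ∀ j, Even (wt j))
    (hgen : ∀ (k : ℤ) (f : ModularForm (Γ0 N) k), ∃ r : ∀ j, ModularForm 𝒮ℒ (k - wt j),
      ∀ τ, f τ = ∑ j, r j τ * F j τ) :
    ∃ (a : X N → ℤ) (G : ∀ x, ModularForm (Γ0 N) (a x)),
      IsFrame a G ∧ (∀ x, 0 ≤ a x) ∧ ∀ x, Even (a x) := by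
  obtain ⟨e, he⟩ := exists_isFrame_of_generates (a := fun j => (wt j : ℤ)) F (by simpa using hn) hgen
  refine ⟨_, _, he, fun x => Int.natCast_nonneg _, fun x => ?_⟩
  exact (Int.even_coe_nat _).mpr (heven (e x))

end Fermat.Agent.S20.H98
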