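/-
S20 package G1 (backup, helper98): existence of a frame, unconditionally.

Combines helper33's regularity lemma (`H33.exists_div_E₄_E₆`), helper80's freeness theorem
(`H80.exists_free_basis_of_regular`) and helper30's local generation (through `H98.Frame`).
-/
import Fermat.Agent.S20.H98.Frame
import Fermat.Agent.S20.H33.Regular
import Fermat.Agent.S20.H80.Concrete

set_option autoImplicit false

open UpperHalfPlane ModularForm CongruenceSubgroup Matrix.SpecialLinearGroup
open scoped MatrixGroups ModularForm

noncomputable section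

namespace Fermat.Agent.S20.H98

/-- The regularity statement of package D holds for every level. -/
theorem regular (N : ℕ) [NeZero N] : H80.Regular N :=
  fun _ A B h => H33.exists_div_E₄_E₆ A B h

/-- **G1 with the extra information used downstream**: there is a frame, indexed by the cosets,
of even nonnegative weights, which is moreover independent over the level-one forms and computes
the dimensions of all spaces of modular forms on `Γ₀(N)`. -/
theorem exists_frame_full (N : ℕ) [NeZero N] :
    ∃ (a : X N → ℤ) (F : ∀ x, ModularForm (Γ0 N) (a x)),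
      IsFrame a F ∧ (∀ x, 0 ≤ a x) ∧ (∀ x, Even (a x)) ∧
      (∀ (k : ℤ) (r : ∀ x, ModularForm 𝒮ℒ (k - a x)),
        (∀ τ, ∑ x, r x τ * F x τ = 0) → ∀ x, r x = 0) ∧
      (∀ k : ℤ, Module.finrank ℂ (ModularForm (Γ0 N) k) =
        ∑ x, Module.finrank ℂ (ModularForm 𝒮ℒ (k - a x))) := by
  obtain ⟨n, wt, F, hn, heven, hgen, -, hfin⟩ := H80.exists_free_basis_of_regular N (regular N)
  have hn' : Fintype.card (Fin n) ≤ Nat.card (X N) := by
    rw [Fintype.card_fin]
    exact hn
  obtain ⟨e, he⟩ := exists_isFrame_of_generates (a := fun j => (wt j : ℤ)) F hn' hgen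
  refine ⟨_, _, he, fun x => Int.natCast_nonneg _, fun x => (Int.even_coe_nat _).mpr (heven (e x)),
    fun k r hr => he.indep r hr, fun k => ?_⟩
  rw [hfin k]
  exact (Equiv.sum_comp e fun j => Module.finrank ℂ (ModularForm 𝒮ℒ (k - (wt j : ℤ)))).symm

/-- **G1** (statement of `Frame.lean` in the S20 skeleton): there is a frame. -/
theorem exists_frame (N : ℕ) [NeZero N] :
    ∃ (a : X N → ℤ) (F : ∀ x, ModularForm (Γ0 N) (a x)), IsFrame a F := by
  obtain ⟨a, F, hF, -⟩ := exists_frame_full N
  exact ⟨a, F, hF⟩

end Fermat.Agent.S20.H98
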